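import Fermat.Agent.LT.T6.H770.CoeffCompare
import Fermat.Agent.LT.T6.H569.SatClosed

/-!
# Row LT, tower T6, leaf T6.12b `CoeffCompareC` CLOSED (helper770), OFF-MAIN

`coeffCompareC770 : H288.CoeffCompareC`, unconditional:
`coeffCompare_of_satClosed770` (this directory) applied to `H569.satClosed569`
(helper569, `T6/H569/SatClosed.lean`, sha256 `d2c1e745…`, byte-identical copy).
-/

set_option autoImplicit false

namespace Fermat.Agent.LT.T6.H770

open Fermat.Agent.LT.T6 Fermat.Agent.LT.T6.H288

/-- **T6.12b** `CoeffCompareC`, unconditional. -/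
theorem coeffCompareC770 : CoeffCompareC :=
  coeffCompare_of_satClosed770 Fermat.Agent.LT.T6.H569.satClosed569

end Fermat.Agent.LT.T6.H770
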