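import Fermat.Agent.LT.T6.H288.HypSpec

/-!
# Row LT, tower T6, leaf T6.12b `CoeffCompareC` (helper770), OFF-MAIN

`coeffCompare_of_satClosed770 : H288.SatClosedC → H288.CoeffCompareC`.

Proof.  Laurent polynomials in two variables are coded by their coefficient functions
`(ℤ × ℤ) →₀ ℂ`; the evaluation at `(x, y) ∈ (ℂ^×)²` is `ev770 x y`.  The evaluations separate
the Laurent polynomials (`laurent_unique770`: Dedekind's independence of the characters
`(u, v) ↦ u^a v^b` of `ℂˣ × ℂˣ`).  By `SatClosedC` the Satake transform of a dominant `F` is the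
evaluation of `satExpF770 q F`, whose coefficient at `(a, b)` is
`(√q)^(a+b) · constTerm q F a b` (`satExpF_apply770`).  `IsBC` says that the Laurent polynomial of
`f` (for `q`) is the dilation by `l` of the one of `φ` (for `q ^ l`); compare the coefficients at
`(l m₁, l m₂)` and use `√(q^l) = (√q)^l`.

Mathlib + `T6/Spec.lean` (helper22, sha256 `89f8f8b8…`) + `T6/H288/HypSpec.lean`
(helper288, sha256 `46fc5f22…`), byte-identical copies.
-/

set_option autoImplicit false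

noncomputable section

namespace Fermat.Agent.LT.T6.H770

open Fermat.Agent.LT.T6 Fermat.Agent.LT.T6.H288

/-! ## 1. Laurent polynomials in two variables and their evaluations -/

/-- The character `(u, v) ↦ u ^ a · v ^ b` of `ℂˣ × ℂˣ`. -/
def monoChar770 (p : ℤ × ℤ) : (ℂˣ × ℂˣ) →* ℂ where
  toFun g := ((g.1 : ℂ) ^ p.1) * ((g.2 : ℂ) ^ p.2)
  map_one' := by simp
  map_mul' g h := by
    simp only [Prod.fst_mul, Prod.snd_mul, Units.val_mul, mul_zpow]
    ring

theorem monoChar_apply770 (p : ℤ × ℤ) (g : ℂˣ × ℂˣ) :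
    monoChar770 p g = ((g.1 : ℂ) ^ p.1) * ((g.2 : ℂ) ^ p.2) := rfl

theorem two_zpow_inj770 {a b : ℤ} (h : (2 : ℂ) ^ a = (2 : ℂ) ^ b) : a = b := by
  have h3 : (2 : ℝ) ^ a = (2 : ℝ) ^ b := by
    have := congrArg (fun z : ℂ => ‖z‖) h
    simp only [norm_zpow, Complex.norm_ofNat] at this
    exact this
  exact zpow_right_injective₀ (by norm_num : (0 : ℝ) < 2) (by norm_num) h3

theorem monoChar_injective770 : Function.Injective monoChar770 := by
  intro p p' h
  have two_ne : (2 : ℂ) ≠ 0 := by norm_num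
  have h1 := congrArg (fun f : (ℂˣ × ℂˣ) →* ℂ => f (Units.mk0 2 two_ne, 1)) h
  have h2 := congrArg (fun f : (ℂˣ × ℂˣ) →* ℂ => f (1, Units.mk0 2 two_ne)) h
  simp only [monoChar_apply770, Units.val_mk0, Units.val_one, one_zpow, mul_one, one_mul]
    at h1 h2
  exact Prod.ext (two_zpow_inj770 h1) (two_zpow_inj770 h2)

/-- Evaluation of the Laurent polynomial with coefficient function `F` at `(x, y)`. -/
def ev770 (x y : ℂ) : ((ℤ × ℤ) →₀ ℂ) →ₗ[ℂ] ℂ :=
  Finsupp.linearCombination ℂ (fun p : ℤ × ℤ => x ^ p.1 * y ^ p.2)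

theorem ev_apply770 (x y : ℂ) (F : (ℤ × ℤ) →₀ ℂ) :
    ev770 x y F = F.sum fun p c => c * (x ^ p.1 * y ^ p.2) := by
  simp [ev770, Finsupp.linearCombination_apply, smul_eq_mul]

theorem ev_single770 (x y : ℂ) (p : ℤ × ℤ) (c : ℂ) :
    ev770 x y (Finsupp.single p c) = c * (x ^ p.1 * y ^ p.2) := by
  simp [ev770, Finsupp.linearCombination_single, smul_eq_mul]

/-- **Evaluations on `(ℂ^×)²` separate the Laurent polynomials.** -/
theorem laurent_unique770 (F : (ℤ × ℤ) →₀ ℂ)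
    (h : ∀ x y : ℂ, x ≠ 0 → y ≠ 0 → ev770 x y F = 0) : F = 0 := by
  have li : LinearIndependent ℂ (fun f : (ℂˣ × ℂˣ) →* ℂ => (f : ℂˣ × ℂˣ → ℂ)) :=
    linearIndependent_monoidHom (ℂˣ × ℂˣ) ℂ
  have li2 : LinearIndependent ℂ
      ((fun f : (ℂˣ × ℂˣ) →* ℂ => (f : ℂˣ × ℂˣ → ℂ)) ∘ monoChar770) :=
    li.comp monoChar770 monoChar_injective770
  refine (linearIndependent_iff.mp li2) F ?_
  funext g
  have hg := h (g.1 : ℂ) (g.2 : ℂ) g.1.ne_zero g.2.ne_zero
  rw [ev_apply770] at hg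
  rw [Finsupp.linearCombination_apply, Finsupp.sum, Finset.sum_apply]
  simp only [Function.comp_apply, Pi.smul_apply, smul_eq_mul, Pi.zero_apply]
  rw [Finsupp.sum] at hg
  simpa [monoChar_apply770] using hg

theorem laurent_ext770 (F G : (ℤ × ℤ) →₀ ℂ)
    (h : ∀ x y : ℂ, x ≠ 0 → y ≠ 0 → ev770 x y F = ev770 x y G) : F = G := by
  have : F - G = 0 := laurent_unique770 (F - G) (fun x y hx hy => by
    rw [map_sub, h x y hx hy, sub_self])
  exact sub_eq_zero.mp this

/-! ## 2. The Laurent polynomial of `satake q lam` -/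

/-- The Laurent polynomial of `satake q lam` (closed form of `SatClosedC`), as a coefficient
function. -/
def satExp770 (q : ℕ) (lam : ℤ × ℤ) : (ℤ × ℤ) →₀ ℂ :=
  ∑ j ∈ Finset.range ((lam.1 - lam.2).toNat + 1),
    Finsupp.single (lam.2 + (j : ℤ), lam.1 - (j : ℤ))
      (((Real.sqrt q : ℝ) : ℂ) ^ (lam.1 + lam.2) *
        ctWeight q lam (lam.2 + (j : ℤ)) (lam.1 - (j : ℤ)))

theorem ev_satExp770 (hS : SatClosedC) {q : ℕ} (hq : 1 < q) {lam : ℤ × ℤ}
    (hlam : lam.2 ≤ lam.1) {x y : ℂ} (hx : x ≠ 0) (hy : y ≠ 0) :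
    ev770 x y (satExp770 q lam) = satake q lam x y := by
  rw [hS q hq lam hlam x y hx hy, satExp770, map_sum]
  refine Finset.sum_congr rfl (fun j _ => ?_)
  rw [ev_single770]
  ring

/-- The coefficients of the Laurent polynomial of `satake q lam`. -/
theorem satExp_apply770 (q : ℕ) {lam : ℤ × ℤ} (hlam : lam.2 ≤ lam.1) (a b : ℤ) :
    satExp770 q lam (a, b) = ((Real.sqrt q : ℝ) : ℂ) ^ (a + b) * ctWeight q lam a b := by
  rw [satExp770, Finsupp.finsetSum_apply]
  simp only [Finsupp.single_apply]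
  have hn : ((lam.1 - lam.2).toNat : ℤ) = lam.1 - lam.2 :=
    Int.toNat_of_nonneg (by omega)
  by_cases hc : lam.1 + lam.2 = a + b ∧ lam.2 ≤ min a b
  · obtain ⟨hsum, hmin⟩ := hc
    have ha : lam.2 ≤ a := le_trans hmin (min_le_left _ _)
    have hb : lam.2 ≤ b := le_trans hmin (min_le_right _ _)
    have hj0 : ((a - lam.2).toNat : ℤ) = a - lam.2 := Int.toNat_of_nonneg (by omega)
    rw [Finset.sum_eq_single (a - lam.2).toNat]
    · have e1 : lam.2 + ((a - lam.2).toNat : ℤ) = a := by omega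
      have e2 : lam.1 - ((a - lam.2).toNat : ℤ) = b := by omega
      rw [e1, e2, if_pos rfl, hsum]
    · intro j _ hj
      rw [if_neg]
      intro h
      have h1 : lam.2 + (j : ℤ) = a := congrArg Prod.fst h
      apply hj
      have : (j : ℤ) = ((a - lam.2).toNat : ℤ) := by omega
      exact_mod_cast this
    · intro hnot
      exfalso
      apply hnot
      rw [Finset.mem_range]
      have : ((a - lam.2).toNat : ℤ) < (((lam.1 - lam.2).toNat + 1 : ℕ) : ℤ) := by
        push_cast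
        omega
      exact_mod_cast this
  · have hw : ctWeight q lam a b = 0 := by
      unfold ctWeight
      rw [if_neg hc]
    rw [hw, mul_zero]
    refine Finset.sum_eq_zero (fun j hj => ?_)
    rw [if_neg]
    intro h
    apply hc
    have h1 : lam.2 + (j : ℤ) = a := congrArg Prod.fst h
    have h2 : lam.1 - (j : ℤ) = b := congrArg Prod.snd h
    have hj' : (j : ℤ) < (((lam.1 - lam.2).toNat + 1 : ℕ) : ℤ) := by
      exact_mod_cast Finset.mem_range.mp hj
    push_cast at hj'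
    refine ⟨by omega, le_min (by omega) (by omega)⟩

/-- The Laurent polynomial of the Satake transform of a spherical function. -/
def satExpF770 (q : ℕ) : ((ℤ × ℤ) →₀ ℂ) →ₗ[ℂ] ((ℤ × ℤ) →₀ ℂ) :=
  Finsupp.linearCombination ℂ (satExp770 q)

theorem ev_satExpF770 (hS : SatClosedC) {q : ℕ} (hq : 1 < q) {F : (ℤ × ℤ) →₀ ℂ}
    (hF : IsDominant F) {x y : ℂ} (hx : x ≠ 0) (hy : y ≠ 0) :
    ev770 x y (satExpF770 q F) = F.sum fun lam c => c * satake q lam x y := by
  rw [satExpF770, Finsupp.linearCombination_apply, map_finsuppSum]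
  refine Finsupp.sum_congr (fun lam hlam => ?_)
  rw [map_smul, smul_eq_mul, ev_satExp770 hS hq (hF lam hlam) hx hy]

/-- The coefficients of the Satake transform are the constant terms. -/
theorem satExpF_apply770 (q : ℕ) {F : (ℤ × ℤ) →₀ ℂ} (hF : IsDominant F) (a b : ℤ) :
    satExpF770 q F (a, b) = ((Real.sqrt q : ℝ) : ℂ) ^ (a + b) * constTerm q F a b := by
  rw [satExpF770, Finsupp.linearCombination_apply, Finsupp.sum_apply, constTerm,
    Finsupp.mul_sum]
  refine Finsupp.sum_congr (fun lam hlam => ?_)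
  rw [Finsupp.smul_apply, smul_eq_mul, satExp_apply770 q (hF lam hlam)]
  ring

/-! ## 3. Dilation of the exponents -/

/-- The dilation `(a, b) ↦ (l a, l b)` of the exponents. -/
def dil770 (l : ℕ) (p : ℤ × ℤ) : ℤ × ℤ := ((l : ℤ) * p.1, (l : ℤ) * p.2)

theorem dil_injective770 {l : ℕ} (hl : 0 < l) : Function.Injective (dil770 l) := by
  intro p p' h
  have hl' : (l : ℤ) ≠ 0 := by exact_mod_cast hl.ne'
  have h1 : (l : ℤ) * p.1 = (l : ℤ) * p'.1 := congrArg Prod.fst h
  have h2 : (l : ℤ) * p.2 = (l : ℤ) * p'.2 := congrArg Prod.snd h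
  exact Prod.ext (mul_left_cancel₀ hl' h1) (mul_left_cancel₀ hl' h2)

theorem ev_mapDomain770 (l : ℕ) (x y : ℂ) (G : (ℤ × ℤ) →₀ ℂ) :
    ev770 x y (Finsupp.mapDomain (dil770 l) G) = ev770 (x ^ l) (y ^ l) G := by
  rw [ev_apply770, ev_apply770, Finsupp.sum_mapDomain_index]
  · refine Finsupp.sum_congr (fun p _ => ?_)
    simp only [dil770, zpow_mul, zpow_natCast]
  · intro p
    simp
  · intro p c c'
    ring

/-! ## 4. The leaf -/

theorem sqrt_pow770 (q l : ℕ) :
    ((Real.sqrt ((q ^ l : ℕ) : ℝ) : ℝ) : ℂ) = ((Real.sqrt (q : ℝ) : ℝ) : ℂ) ^ l := by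
  have h : Real.sqrt ((q ^ l : ℕ) : ℝ) = Real.sqrt (q : ℝ) ^ l := by
    rw [Nat.cast_pow]
    refine (Real.sqrt_eq_iff_mul_self_eq (by positivity) (by positivity)).mpr ?_
    rw [← mul_pow, Real.mul_self_sqrt (Nat.cast_nonneg q)]
  rw [h, Complex.ofReal_pow]

/-- **T6.12b** `CoeffCompareC` from `SatClosedC` (T6.12a). -/
theorem coeffCompare_of_satClosed770 (hS : SatClosedC) : CoeffCompareC := by
  intro l q hl hq φ f hφ hf hbc m₁ m₂
  have hQ : 1 < q ^ l := Nat.one_lt_pow hl.ne' hq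
  have key : satExpF770 q f = Finsupp.mapDomain (dil770 l) (satExpF770 (q ^ l) φ) := by
    apply laurent_ext770
    intro x y hx hy
    rw [ev_satExpF770 hS hq hf hx hy, ev_mapDomain770,
      ev_satExpF770 hS hQ hφ (pow_ne_zero l hx) (pow_ne_zero l hy)]
    exact hbc x y hx hy
  have h1 : satExpF770 q f (dil770 l (m₁, m₂))
      = Finsupp.mapDomain (dil770 l) (satExpF770 (q ^ l) φ) (dil770 l (m₁, m₂)) := by
    rw [key]
  rw [Finsupp.mapDomain_apply (dil_injective770 hl)] at h1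
  have h2 : dil770 l (m₁, m₂) = ((l : ℤ) * m₁, (l : ℤ) * m₂) := rfl
  rw [h2, satExpF_apply770 q hf, satExpF_apply770 (q ^ l) hφ, sqrt_pow770] at h1
  have hs : ((Real.sqrt (q : ℝ) : ℝ) : ℂ) ≠ 0 := by
    have hpos : (0 : ℝ) < Real.sqrt (q : ℝ) :=
      Real.sqrt_pos.mpr (by exact_mod_cast (lt_trans Nat.zero_lt_one hq))
    exact_mod_cast hpos.ne'
  have h3 : (((Real.sqrt (q : ℝ) : ℝ) : ℂ) ^ l) ^ (m₁ + m₂)
      = ((Real.sqrt (q : ℝ) : ℝ) : ℂ) ^ ((l : ℤ) * m₁ + (l : ℤ) * m₂) := by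
    rw [← zpow_natCast, ← zpow_mul, mul_add]
  rw [h3] at h1
  exact mul_left_cancel₀ (zpow_ne_zero _ hs) h1

end Fermat.Agent.LT.T6.H770

end
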